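import Fermat.Agent.S17.HA.MulSpan
import Fermat.Agent.S17.TP.PLHsub
import Fermat.Agent.S17.TP.PLDim

/-!
# S17/HA node HA3: the closed cones `Zcone` consist of the Pluecker vectors of the `Wc n E` (HILB in coordinates)

* `minors_mem_Zcone`: `IsCut.span_kerVecP`; `⊤ = Wc k 0`; `mulSpan_Wc_le`; `finrank_Wc_add` at level `n + k`; `Submodule.finrank_mono`.
* `exists_eq_Wc_of_mem_Zcone`: `U := span (range (kerVecP p))`, `W := U.map (vecL n) ≤ Lm n`, `r' := dL n - finrank U ≤ r` (PL4 =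
  `le_finrank_span_kerVecP`).  `finrank (Lm k * W) = finrank (mulSpan (mulc n k) U ⊤) ≤ dL (n+k) - r ≤ dL (n+k) - r'`
  (`map_vecL_mulSpan`, `range_vecL`, `mul_comm`).  HILB `exists_eq_Lsp P₀ n k r' W`: `W = Lsp n E`, `deg E = r'`.  Then
  `Lm k * Lsp n E = Lsp (n+k) E` (`Lsp_mul_Lsp`, `Lsp_zero`) has finrank `dL (n+k) - r'`, so `r ≤ r'`, `r' = r`.  `U = Wc n E` by injectivity of `vecL`.
* `hbig`: both spans are `Wc n B₁`, `Wc m B₂`; `mulSpan_Wc_eq`; `finrank_Wc_add` for `B₁ + B₂` at level `n + m`.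
IMPORTS: the PL lemmas are the final proved ones (`TP/PLCut.lean`, `TP/PLDim.lean`, `TP/PLHsub.lean`), the F lemmas the final `F/*.lean`.
-/

set_option autoImplicit false
set_option linter.unusedSectionVars false

noncomputable section

namespace Fermat.Agent.S17.HA

open AlgebraicCurve Fermat.Agent.S24.FF Fermat.Agent.S27 Fermat.Agent.S17.TP Fermat.Agent.S17.F Module

variable {K F : Type} [Field K] [Field F] [Algebra K F] [IsAlgClosed K] [CharZero K] [IsFF1 K F]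
  [NonConst K F] (P₀ : Place K F)

theorem minors_mem_Zcone (n k r : ℕ) (E : Divisor K F) (hE : 0 ≤ E) (hdeg : Divisor.degree E = r)
    (hn : r + h1Bound K F ≤ n) {A : Matrix (Fin r) (Fin (dL P₀ n)) K} (hA : IsCut A (Wc P₀ n E)) :
    minors A ∈ Zcone (mulc P₀ n k) (dL P₀ (n + k) - r) := by
  show finrank K (mulSpan (mulc P₀ n k)
    (Submodule.span K (Set.range (kerVecP (minors A)))) ⊤) ≤ dL P₀ (n + k) - r
  rw [hA.span_kerVecP, ← Wc_zero P₀ k]
  have h1 := Submodule.finrank_mono (mulSpan_Wc_le P₀ n k E 0)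
  rw [add_zero] at h1
  have h2 := finrank_Wc_add P₀ (n + k) r E hE hdeg (by omega)
  omega

theorem exists_eq_Wc_of_mem_Zcone (n k r : ℕ) (hn : r + cHA K F ≤ n) (hk : n + h1Bound K F ≤ k)
    (p : (Fin r ↪o Fin (dL P₀ n)) → K) (hp : p ≠ 0)
    (hpZ : p ∈ Zcone (mulc P₀ n k) (dL P₀ (n + k) - r)) :
    ∃ E : Divisor K F, 0 ≤ E ∧ Divisor.degree E = r ∧
      Submodule.span K (Set.range (kerVecP p)) = Wc P₀ n E := by
  set U : Submodule K (Fin (dL P₀ n) → K) := Submodule.span K (Set.range (kerVecP p)) with hU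
  have hpZ' : finrank K (mulSpan (mulc P₀ n k) U ⊤) ≤ dL P₀ (n + k) - r := hpZ
  have hc : cHA K F = 2 * h1Bound K F + genusFF K F + 1 := rfl
  have hinj := vecL_injective P₀ n
  have hW : U.map (vecL P₀ n) ≤ Lm P₀ n := by
    rw [← range_vecL P₀ n]
    exact LinearMap.map_le_range
  have hfW : finrank K (U.map (vecL P₀ n)) = finrank K U :=
    (LinearEquiv.finrank_eq (Submodule.equivMapOfInjective _ hinj U)).symm
  have hcodim : finrank K (Lm P₀ n) ≤ finrank K (U.map (vecL P₀ n)) + r := by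
    rw [hfW]
    exact le_finrank_span_kerVecP p hp
  have hd : finrank K (Lm P₀ (n + k)) + genusFF K F = n + k + 1 :=
    finrank_Lm P₀ (n + k) (by omega)
  have hmul : finrank K (Lm P₀ k * U.map (vecL P₀ n) : Submodule K F) + r
      ≤ finrank K (Lm P₀ (n + k)) := by
    have h1 := map_vecL_mulSpan P₀ n k U ⊤
    rw [Submodule.map_top, range_vecL, mul_comm] at h1
    rw [← h1, ← LinearEquiv.finrank_eq
      (Submodule.equivMapOfInjective _ (vecL_injective P₀ (n + k)) _)]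
    have h2 : dL P₀ (n + k) = finrank K (Lm P₀ (n + k)) := rfl
    omega
  obtain ⟨E, hE, hdeg, hWE⟩ := exists_eq_Lsp P₀ n k r _ hW hcodim hmul (by omega) hk
  refine ⟨E, hE, hdeg, ?_⟩
  rw [Wc, ← hWE, Submodule.comap_map_eq_of_injective hinj]

theorem hbig (n m k k' r r' : ℕ) (hn : r + cHA K F ≤ n) (hm : r' + cHA K F ≤ m)
    (hk : n + h1Bound K F ≤ k) (hk' : m + h1Bound K F ≤ k') :
    ∀ p₁ ∈ Zcone (r := r) (mulc P₀ n k) (dL P₀ (n + k) - r),
    ∀ p₂ ∈ Zcone (r := r') (mulc P₀ m k') (dL P₀ (m + k') - r'), p₁ ≠ 0 → p₂ ≠ 0 →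
      dL P₀ (n + m) ≤ finrank K (mulSpan (mulc P₀ n m) (Submodule.span K (Set.range (kerVecP p₁)))
        (Submodule.span K (Set.range (kerVecP p₂)))) + (r + r') := by
  intro p₁ hp₁ p₂ hp₂ h₁ h₂
  have hc : cHA K F = 2 * h1Bound K F + genusFF K F + 1 := rfl
  obtain ⟨B₁, hB₁, hd₁, hs₁⟩ := exists_eq_Wc_of_mem_Zcone P₀ n k r hn hk p₁ h₁ hp₁
  obtain ⟨B₂, hB₂, hd₂, hs₂⟩ := exists_eq_Wc_of_mem_Zcone P₀ m k' r' hm hk' p₂ h₂ hp₂
  rw [hs₁, hs₂, mulSpan_Wc_eq P₀ n m r r' B₁ B₂ hB₁ hB₂ hd₁ hd₂ (by omega) (by omega)]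
  have h := finrank_Wc_add P₀ (n + m) (r + r') (B₁ + B₂) (add_nonneg hB₁ hB₂)
    (by rw [map_add, hd₁, hd₂]; push_cast; rfl) (by omega)
  omega

end Fermat.Agent.S17.HA

end
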