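import Fermat.Agent.S17.HA.Flag
import Fermat.Agent.S17.HA.Cone
import Fermat.Agent.S17.HA.WIP.AbsStub

/-!
# S17/HA node HA4: the additivity (A), balanced form

`μ := mulc n m`, `k := n + c₀`, `k' := m + c₀`, `Z₁ := Zcone (r := r) (mulc n k) (dL (n+k) - r)`, `Z₂` likewise.
Upper half: `abs_A_le H μ`.  Lower half: `abs_A_ge H μ (r₃ := r + r') Z₁ Z₂ (isZClosed_Zcone ..) .. (isCone_Zcone ..) .. (hbig ..)`.
For given `E, E', P`: `yData` (from `finrank_Wc_add_pt`); `exists_isCut (Wc n E)` gives `r₀`, `A`; `IsCut.finrank_add` and `finrank_Wc_add` give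
`r₀ = r` (`subst`); `minors_mem_Zcone`; `finrank_Wc_add` for `E + E'` at level `n + m`.  `Hh = Hsub` by definition.  Combine with `abs_le`.
-/

set_option autoImplicit false
set_option linter.unusedSectionVars false

noncomputable section

namespace Fermat.Agent.S17.HA

open AlgebraicCurve Fermat.Agent.S24.FF Fermat.Agent.S27 Fermat.Agent.S17.TP Fermat.Agent.S17.F Fermat.Agent.S17.HA.AbsStub Module

variable {K F : Type} [Field K] [Field F] [Algebra K F] [IsAlgClosed K] [CharZero K] [IsFF1 K F]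
  [NonConst K F] (P₀ : Place K F)

theorem A_main (H : HeightFn K) (n m r r' : ℕ) (hn : r + 1 + cHA K F ≤ n)
    (hm : r' + 1 + cHA K F ≤ m) :
    ∃ C : ℝ, ∀ (E E' : Divisor K F) (P : Place K F), 0 ≤ E → 0 ≤ E' →
      Divisor.degree E = r → Divisor.degree E' = r' →
      |Hh P₀ H (n + m) (E + E' + pt P) - Hh P₀ H (n + m) (E + E')
        - (Hh P₀ H n (E + pt P) - Hh P₀ H n E) - (Hh P₀ H m (E' + pt P) - Hh P₀ H m E')| ≤ C := by
  have hc : cHA K F = 2 * h1Bound K F + genusFF K F + 1 := rfl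
  obtain ⟨C₁, h₁⟩ := abs_A_le H (mulc P₀ n m)
  obtain ⟨C₂, h₂⟩ := abs_A_ge H (mulc P₀ n m) (r₃ := r + r')
    (Zcone (r := r) (mulc P₀ n (n + h1Bound K F)) (dL P₀ (n + (n + h1Bound K F)) - r))
    (Zcone (r := r') (mulc P₀ m (m + h1Bound K F)) (dL P₀ (m + (m + h1Bound K F)) - r'))
    (isZClosed_Zcone _ _) (isZClosed_Zcone _ _) (isCone_Zcone _ _) (isCone_Zcone _ _)
    (hbig P₀ n m (n + h1Bound K F) (m + h1Bound K F) r r' (by omega) (by omega) le_rfl le_rfl)
  refine ⟨max C₁ C₂, fun E E' P hE hE' hdeg hdeg' => ?_⟩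
  have hY := yData P₀ n m E E' P (finrank_Wc_add_pt P₀ n r E P hE hdeg (by omega))
    (finrank_Wc_add_pt P₀ m r' E' P hE' hdeg' (by omega))
  have e₁ := h₁ _ _ _ _ _ _ hY
  obtain ⟨r₀, A, hA⟩ := exists_isCut (Wc P₀ n E)
  obtain rfl : r₀ = r := by
    have h3 := hA.finrank_add
    have h4 := finrank_Wc_add P₀ n r E hE hdeg (by omega)
    omega
  obtain ⟨r₀', A', hA'⟩ := exists_isCut (Wc P₀ m E')
  obtain rfl : r₀' = r' := by
    have h3 := hA'.finrank_add
    have h4 := finrank_Wc_add P₀ m r' E' hE' hdeg' (by omega)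
    omega
  have e₂ := h₂ _ _ _ _ _ _ hY A A' hA hA'
    (minors_mem_Zcone P₀ n _ _ E hE hdeg (by omega) hA)
    (minors_mem_Zcone P₀ m _ _ E' hE' hdeg' (by omega) hA')
    (finrank_Wc_add P₀ (n + m) _ (E + E') (add_nonneg hE hE')
      (by rw [map_add, hdeg, hdeg']; push_cast; rfl) (by omega))
  have e₃ := le_max_left C₁ C₂
  have e₄ := le_max_right C₁ C₂
  unfold Hh
  rw [abs_le]
  constructor <;> linarith

end Fermat.Agent.S17.HA

end
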