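import Fermat.Agent.S17.HA.Flag
import Fermat.Agent.S17.HA.WIP.AbsStub

/-!
# S17/HA node HA5: the one-sided additivity (Ale) at ALL levels, and the small fields (Hnn), (H0), (N1)

* `Ale_main`: `abs_A_le H (mulc n m)` with `E' = 0`: `yData n m E 0 P`; `finrank_Wc`, `finrank_Wc_le_succ` turn `<` into `+ 1 =`;
  `Wc m 0 = ⊤`, `Hsub_top`; `0 + pt P = pt P`, `E + 0 = E`.
* `Hh_nonneg` = `Hsub_nonneg`; `Hh_zero` = `Wc_zero` + `Hsub_top`.
* `N1_main`: `s ∈ Lsp n A ≤ Lm n`; `Wc n A = K ∙ coo s` (apply `vecL`, injective); `Hsub_span_singleton`; unfold `hs` (`dif_pos`).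
-/

set_option autoImplicit false
set_option linter.unusedSectionVars false

noncomputable section

namespace Fermat.Agent.S17.HA

open AlgebraicCurve Fermat.Agent.S24.FF Fermat.Agent.S27 Fermat.Agent.S17.TP Fermat.Agent.S17.F Fermat.Agent.S17.HA.AbsStub Module

variable {K F : Type} [Field K] [Field F] [Algebra K F] [IsAlgClosed K] [CharZero K] [IsFF1 K F]
  [NonConst K F] (P₀ : Place K F)

theorem Ale_main (H : HeightFn K) (n m : ℕ) :
    ∃ C : ℝ, ∀ (E : Divisor K F) (P : Place K F), 0 ≤ E →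
      finrank K (Lsp P₀ n (E + pt P)) < finrank K (Lsp P₀ n E) →
      finrank K (Lsp P₀ m (pt P)) < finrank K (Lm P₀ m) →
      Hh P₀ H n (E + pt P) - Hh P₀ H n E + Hh P₀ H m (pt P)
        ≤ Hh P₀ H (n + m) (E + pt P) - Hh P₀ H (n + m) E + C := by
  obtain ⟨C, hC⟩ := abs_A_le H (mulc P₀ n m)
  refine ⟨C, fun E P hE h1 h2 => ?_⟩
  have hpt : (0 : Divisor K F) ≤ pt P := LspAux.pt_nonneg P
  have fr1 : finrank K (Wc P₀ n (E + pt P)) + 1 = finrank K (Wc P₀ n E) := by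
    have h3 := finrank_Wc_le_succ P₀ n E P
    rw [← finrank_Wc P₀ n _ (add_nonneg hE hpt), ← finrank_Wc P₀ n _ hE] at h1
    omega
  have fr2 : finrank K (Wc P₀ m (0 + pt P)) + 1 = finrank K (Wc P₀ m 0) := by
    have h3 := finrank_Wc_le_succ P₀ m 0 P
    rw [← Lsp_zero, ← finrank_Wc P₀ m _ hpt, ← finrank_Wc P₀ m _ le_rfl] at h2
    rw [zero_add] at h3 ⊢
    omega
  have h := hC _ _ _ _ _ _ (yData P₀ n m E 0 P fr1 fr2)
  rw [Wc_zero, Hsub_top, zero_add, add_zero] at h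
  unfold Hh
  linarith

theorem Hh_nonneg (H : HeightFn K) (n : ℕ) (E : Divisor K F) : 0 ≤ Hh P₀ H n E :=
  Hsub_nonneg H _

theorem Hh_zero (H : HeightFn K) (n : ℕ) : Hh P₀ H n 0 = 0 := by
  unfold Hh
  rw [Wc_zero, Hsub_top]

theorem N1_main (H : HeightFn K) (n : ℕ) (A : Divisor K F) (hA : 0 ≤ A) (s : F) (hs0 : s ≠ 0)
    (h : Lsp P₀ n A = K ∙ s) : Hh P₀ H n A = hs P₀ H n s := by
  have hsA : s ∈ Lsp P₀ n A := by
    rw [h]
    exact Submodule.mem_span_singleton_self s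
  have hsL : s ∈ Lm P₀ n := Lsp_le_Lm P₀ n A hA hsA
  have hW : K ∙ (coo P₀ n ⟨s, hsL⟩) = Wc P₀ n A := by
    apply eq_Wc_of_map_eq
    rw [Submodule.map_span, Set.image_singleton, vecL_coo, h]
  have hne : coo P₀ n ⟨s, hsL⟩ ≠ 0 := by
    intro h0
    rw [LinearEquiv.map_eq_zero_iff] at h0
    exact hs0 (congrArg Subtype.val h0)
  unfold Hh hs
  rw [dif_pos hsL, ← hW, Hsub_span_singleton H _ hne]

end Fermat.Agent.S17.HA

end
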