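import Fermat.Agent.S17.HA.Coord
import Fermat.Agent.S17.HA.WIP.AbsStub

/-!
# S17/HA node HA6: multiplication by a section (M), all levels

* `map_flip_mulc_Wc`: apply the injective `vecL (n+m)`; `vecL_mulc`, `vecL_coo`; `map_vecL_Wc` (both divisors are effective: `t ∈ Lm m` means
  `0 ≤ divOf t + m P₀`); `map_mulLeft_L (n P₀ - E) t`; `(n+m) P₀ - (E + divOf t + m P₀) = n P₀ - E - divOf t`.
* `M_main`: `abs_M H (mulc n m) (mulc_eq_zero ..)`; `coo ⟨t, ht⟩ ≠ 0`; `finrank_Wc`; `hs` unfolds by `dif_pos`.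
-/

set_option autoImplicit false
set_option linter.unusedSectionVars false

noncomputable section

namespace Fermat.Agent.S17.HA

open AlgebraicCurve Fermat.Agent.S24.FF Fermat.Agent.S27 Fermat.Agent.S17.TP Fermat.Agent.S17.F Fermat.Agent.S17.HA.AbsStub Module

variable {K F : Type} [Field K] [Field F] [Algebra K F] [IsAlgClosed K] [CharZero K] [IsFF1 K F]
  [NonConst K F] (P₀ : Place K F)

theorem divOf_add_nonneg_of_mem_Lm {m : ℕ} {t : F} (ht : t ∈ Lm P₀ m) (ht0 : t ≠ 0) :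
    0 ≤ Riemann.divOf t + m • pt P₀ := by
  rw [Lm, mem_riemannRochSpace_iff] at ht
  intro v
  rcases ht v with h | h
  · exact absurd h ht0
  · rw [Finsupp.add_apply, Riemann.divOf_apply, Finsupp.coe_zero, Pi.zero_apply]
    omega

theorem map_flip_mulc_Wc (n m : ℕ) (E : Divisor K F) (hE : 0 ≤ E) (t : F) (ht : t ∈ Lm P₀ m)
    (ht0 : t ≠ 0) :
    (Wc P₀ n E).map ((mulc P₀ n m).flip (coo P₀ m ⟨t, ht⟩))
      = Wc P₀ (n + m) (E + Riemann.divOf t + m • pt P₀) := by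
  apply map_vecL_injective P₀ (n + m)
  have hE' : 0 ≤ E + Riemann.divOf t + m • pt P₀ := by
    rw [add_assoc]
    exact add_nonneg hE (divOf_add_nonneg_of_mem_Lm P₀ ht ht0)
  rw [map_vecL_Wc P₀ (n + m) _ hE', ← Submodule.map_comp]
  have hcomp : (vecL P₀ (n + m)) ∘ₗ ((mulc P₀ n m).flip (coo P₀ m ⟨t, ht⟩))
      = (LinearMap.mulLeft K t) ∘ₗ (vecL P₀ n) := by
    refine LinearMap.ext fun x => ?_
    rw [LinearMap.comp_apply, LinearMap.flip_apply, LinearMap.comp_apply, LinearMap.mulLeft_apply,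
      vecL_mulc, vecL_coo, mul_comm]
  rw [hcomp, Submodule.map_comp, map_vecL_Wc P₀ n E hE, Lsp, map_mulLeft_L _ t ht0, Lsp]
  congr 1
  rw [add_smul]
  abel

theorem M_main (H : HeightFn K) (n m : ℕ) :
    ∃ C : ℝ, ∀ (E : Divisor K F) (t : F), 0 ≤ E → t ∈ Lm P₀ m → t ≠ 0 →
      |Hh P₀ H (n + m) (E + Riemann.divOf t + m • pt P₀) - Hh P₀ H n E
        - finrank K (Lsp P₀ n E) * hs P₀ H m t| ≤ C := by
  obtain ⟨C, hC⟩ := abs_M H (mulc P₀ n m) (mulc_eq_zero P₀ n m)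
  refine ⟨C, fun E t hE ht ht0 => ?_⟩
  have hne : coo P₀ m ⟨t, ht⟩ ≠ 0 := by
    intro h
    apply ht0
    have := vecL_coo P₀ m ⟨t, ht⟩
    rw [h, map_zero] at this
    exact this.symm
  have := hC (Wc P₀ n E) (coo P₀ m ⟨t, ht⟩) hne
  rw [map_flip_mulc_Wc P₀ n m E hE t ht ht0, finrank_Wc P₀ n E hE] at this
  unfold Hh hs
  rw [dif_pos ht]
  exact this

end Fermat.Agent.S17.HA

end
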