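import Fermat.Agent.S17.HA.Coord
import Fermat.Agent.S17.TP.PLHsub
import Fermat.Agent.S17.TP.PLDim

/-!
# S17/HA node HA7: (X) values of functions are controlled by the height of the point

For `P ≠ P₀` every `f ∈ Lm m` is regular at `P`; `l_P i := ev P (bas m i)`.
* `ev_vecL`: `ev P (vecL m x) = l_P ⬝ᵥ x` (additivity and `K`-linearity of `ev P` on functions regular at `P`: API of `Fermat/Agent/S27/Ev.lean`).
* `mem_Wc_pt_iff`: `x ∈ Wc m (pt P) ↔ l_P ⬝ᵥ x = 0` (`mem_L_sub_pt_iff`; a regular function vanishes at `P` iff `ev P = 0`).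
* `evVec_ne_zero`: `1 ∈ Lm m`, `ev P 1 = 1`.
* `Hh_pt`: `Hsub_ker_dotProduct`.
* `X_main`: `![ev P a, ev P b]` is the image of `l_P` under the fixed matrix with rows `coo a`, `coo b`; `HeightFn.linear`.
-/

set_option autoImplicit false
set_option linter.unusedSectionVars false

noncomputable section

namespace Fermat.Agent.S17.HA

open AlgebraicCurve Fermat.Agent.S24.FF Fermat.Agent.S27 Fermat.Agent.S17.TP Fermat.Agent.S17.F Module

variable {K F : Type} [Field K] [Field F] [Algebra K F] [IsAlgClosed K] [CharZero K] [IsFF1 K F]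
  [NonConst K F] (P₀ : Place K F)

/-- the vector of the values at `P` of the basis of `L(m P₀)` -/
def evVec (m : ℕ) (P : Place K F) : Fin (dL P₀ m) → K := fun i => ev P (bas P₀ m i : F)

theorem mainX_smul_pt_apply_of_ne (m : ℕ) {P : Place K F} (hP : P ≠ P₀) : (m • pt P₀) P = 0 := by
  classical
  rw [Finsupp.smul_apply, pt, Finsupp.single_apply, if_neg (Ne.symm hP), smul_zero]

/-- the elements of `L(m P₀)` are regular at `P ≠ P₀` -/
theorem mainX_ord_nonneg_of_mem_Lm {m : ℕ} {P : Place K F} (hP : P ≠ P₀) {f : F} (hf : f ∈ Lm P₀ m) :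
    0 ≤ P.ord f := by
  rcases (mem_riemannRochSpace_iff.1 hf) P with rfl | h
  · simp
  · rwa [mainX_smul_pt_apply_of_ne P₀ m hP, neg_zero] at h

theorem mainX_one_mem_Lm (m : ℕ) : (1 : F) ∈ Lm P₀ m := by
  classical
  refine mem_riemannRochSpace_iff.2 fun v => Or.inr ?_
  have h1 : v.ord (1 : F) = 0 := by
    have := ord_algebraMap v (1 : K)
    rwa [map_one] at this
  have h2 : 0 ≤ (m • pt P₀) v := by
    rw [Finsupp.smul_apply, pt, Finsupp.single_apply]
    split_ifs <;> simp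
  rw [h1]
  omega

theorem mainX_vecL_eq_sum (m : ℕ) (x : Fin (dL P₀ m) → K) :
    vecL P₀ m x = ∑ i, x i • (bas P₀ m i : F) := by
  have h1 : (coo P₀ m).symm x = ∑ i, x i • bas P₀ m i := (bas P₀ m).equivFun_symm_apply x
  show (((coo P₀ m).symm x : Lm P₀ m) : F) = _
  rw [h1, Submodule.coe_sum]
  rfl

theorem mainX_isVal_sum_smul {ι : Type} (s : Finset ι) (P : Place K F) (x : ι → K) (b : ι → F)
    (hb : ∀ i, 0 ≤ P.ord (b i)) :
    IsVal P (∑ i ∈ s, x i • b i) (∑ i ∈ s, ev P (b i) * x i) := by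
  classical
  induction s using Finset.induction_on with
  | empty =>
    simpa using isVal_algebraMap P (0 : K)
  | insert a s ha ih =>
    rw [Finset.sum_insert ha, Finset.sum_insert ha]
    refine IsVal.add ?_ ih
    rw [Algebra.smul_def, mul_comm (ev P (b a))]
    exact (isVal_algebraMap P (x a)).mul (isVal_ev (hb a))

theorem ev_vecL (m : ℕ) (P : Place K F) (hP : P ≠ P₀) (x : Fin (dL P₀ m) → K) :
    ev P (vecL P₀ m x) = evVec P₀ m P ⬝ᵥ x := by
  rw [mainX_vecL_eq_sum]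
  exact ev_eq_of_isVal (mainX_isVal_sum_smul Finset.univ P x (fun i => (bas P₀ m i : F))
    fun i => mainX_ord_nonneg_of_mem_Lm P₀ hP (bas P₀ m i).2)

theorem mem_Wc_pt_iff (m : ℕ) (P : Place K F) (hP : P ≠ P₀) (x : Fin (dL P₀ m) → K) :
    x ∈ Wc P₀ m (pt P) ↔ evVec P₀ m P ⬝ᵥ x = 0 := by
  rw [← ev_vecL P₀ m P hP x, ev_eq_zero_iff (mainX_ord_nonneg_of_mem_Lm P₀ hP (vecL_mem P₀ m x)),
    mem_Wc_iff]
  show vecL P₀ m x ∈ riemannRochSpace (m • pt P₀ - pt P) ↔ _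
  rw [mem_L_sub_pt_iff, mainX_smul_pt_apply_of_ne P₀ m hP, neg_zero]
  exact and_iff_right (vecL_mem P₀ m x)

theorem evVec_ne_zero (m : ℕ) (P : Place K F) (hP : P ≠ P₀) : evVec P₀ m P ≠ 0 := by
  intro h0
  obtain ⟨x, hx⟩ := exists_vecL_eq P₀ (mainX_one_mem_Lm P₀ m)
  have h1 := ev_vecL P₀ m P hP x
  rw [hx, h0, zero_dotProduct] at h1
  have h2 : ev P (1 : F) = 1 := by
    have := ev_algebraMap P (1 : K)
    rwa [map_one] at this
  rw [h2] at h1
  exact one_ne_zero h1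

theorem Hh_pt (H : HeightFn K) (m : ℕ) (P : Place K F) (hP : P ≠ P₀) :
    Hh P₀ H m (pt P) = H.h (evVec P₀ m P) :=
  Hsub_ker_dotProduct H (evVec P₀ m P) (evVec_ne_zero P₀ m P hP) (Wc P₀ m (pt P))
    (mem_Wc_pt_iff P₀ m P hP)

theorem X_main (H : HeightFn K) (m : ℕ) (a b : F) (ha : a ∈ Lm P₀ m) (hb : b ∈ Lm P₀ m) :
    ∃ C : ℝ, ∀ P : Place K F, P ≠ P₀ → H.h ![ev P a, ev P b] ≤ Hh P₀ H m (pt P) + C := by
  obtain ⟨xa, rfl⟩ := exists_vecL_eq P₀ ha
  obtain ⟨xb, rfl⟩ := exists_vecL_eq P₀ hb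
  obtain ⟨C, hC⟩ := H.linear (![xa, xb] : Fin 2 → Fin (dL P₀ m) → K)
  refine ⟨C, fun P hP => ?_⟩
  rw [Hh_pt P₀ H m P hP]
  have e : ![ev P (vecL P₀ m xa), ev P (vecL P₀ m xb)] =
      fun j => ∑ i, (![xa, xb] : Fin 2 → Fin (dL P₀ m) → K) j i * evVec P₀ m P i := by
    funext j
    fin_cases j
    · show ev P (vecL P₀ m xa) = ∑ i, xa i * evVec P₀ m P i
      rw [ev_vecL P₀ m P hP, dotProduct_comm]
      rfl
    · show ev P (vecL P₀ m xb) = ∑ i, xb i * evVec P₀ m P i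
      rw [ev_vecL P₀ m P hP, dotProduct_comm]
      rfl
  rw [e]
  exact hC _

end Fermat.Agent.S17.HA

end
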