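import Fermat.Agent.S17.HA.Defs
import Fermat.Agent.S17.F.Basic
import Fermat.Agent.S17.F.Avoid
import Fermat.Agent.S17.F.SupInf
import Fermat.Agent.S17.F.Pencil
import Fermat.Agent.S17.F.Reduced
import Fermat.Agent.S17.F.Special
import Fermat.Agent.S17.F.Lead
import Fermat.Agent.S17.F.Castelnuovo
import Fermat.Agent.S17.F.Lsp
import Fermat.Agent.S17.F.Hilb

/-!
# S17/HA node HA0: API of the coordinates `vecL`, `mulc`, `Wc`

Everything is unfolding of `HA/Defs.lean`.  `vecL_mulc`: the product lies in `Lm P₀ (n + m)` (`L_mul_L_le`, `add_smul`), so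
`retr` fixes it (`retr_comp_subtype`) and `vecL (coo t) = t`.  `mulc_eq_zero`: `F` is a field, `vecL` injective.
`map_vecL_Wc`: `Lsp_le_Lm`, `range_vecL`.  `finrank_Wc`: `LinearEquiv.finrank_eq` / `finrank_map_eq'` for the injective `vecL`.
`finrank_Wc_add`: `finrank_Lsp`, `finrank_Lm`.
IMPORTS: the block-F lemmas are the final proved ones (`Fermat/Agent/S17/F/*.lean`, namespace `Fermat.Agent.S17.F`, opened).
-/

set_option autoImplicit false
set_option linter.unusedSectionVars false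

noncomputable section

namespace Fermat.Agent.S17.HA

open AlgebraicCurve Fermat.Agent.S24.FF Fermat.Agent.S27 Fermat.Agent.S17.TP Fermat.Agent.S17.F Module

variable {K F : Type} [Field K] [Field F] [Algebra K F] [IsAlgClosed K] [CharZero K] [IsFF1 K F]
  [NonConst K F] (P₀ : Place K F)

theorem vecL_mem (n : ℕ) (x : Fin (dL P₀ n) → K) : vecL P₀ n x ∈ Lm P₀ n :=
  ((coo P₀ n).symm x).2

theorem vecL_injective (n : ℕ) : Function.Injective (vecL P₀ n) := by
  unfold vecL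
  exact (Submodule.injective_subtype _).comp (coo P₀ n).symm.injective

theorem vecL_coo (n : ℕ) (t : Lm P₀ n) : vecL P₀ n (coo P₀ n t) = t := by
  unfold vecL
  simp

theorem coo_vecL (n : ℕ) (x : Fin (dL P₀ n) → K) :
    coo P₀ n ⟨vecL P₀ n x, vecL_mem P₀ n x⟩ = x := by
  apply vecL_injective P₀ n
  rw [vecL_coo]

theorem range_vecL (n : ℕ) : LinearMap.range (vecL P₀ n) = Lm P₀ n := by
  unfold vecL
  rw [LinearMap.range_comp, LinearEquiv.range, Submodule.map_top, Submodule.range_subtype]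

theorem exists_vecL_eq {n : ℕ} {f : F} (hf : f ∈ Lm P₀ n) : ∃ x, vecL P₀ n x = f :=
  ⟨coo P₀ n ⟨f, hf⟩, vecL_coo P₀ n ⟨f, hf⟩⟩

theorem mem_Wc_iff {n : ℕ} {E : Divisor K F} {x : Fin (dL P₀ n) → K} :
    x ∈ Wc P₀ n E ↔ vecL P₀ n x ∈ Lsp P₀ n E := Iff.rfl

theorem Lm_mul_mem (n m : ℕ) {s t : F} (hs : s ∈ Lm P₀ n) (ht : t ∈ Lm P₀ m) :
    s * t ∈ Lm P₀ (n + m) := by
  have h := L_mul_L_le (K := K) (F := F) (n • pt P₀) (m • pt P₀)
  have h2 : s * t ∈ riemannRochSpace (n • pt P₀) * riemannRochSpace (m • pt P₀) :=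
    Submodule.mul_mem_mul hs ht
  have h3 := h h2
  unfold Lm
  rwa [add_smul]

theorem retr_apply_of_mem (n : ℕ) {t : F} (ht : t ∈ Lm P₀ n) : retr P₀ n t = ⟨t, ht⟩ := by
  have := LinearMap.congr_fun (retr_comp_subtype P₀ n) ⟨t, ht⟩
  simpa using this

theorem vecL_mulc (n m : ℕ) (x : Fin (dL P₀ n) → K) (y : Fin (dL P₀ m) → K) :
    vecL P₀ (n + m) (mulc P₀ n m x y) = vecL P₀ n x * vecL P₀ m y := by
  have hmem := Lm_mul_mem P₀ n m (vecL_mem P₀ n x) (vecL_mem P₀ m y)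
  have : mulc P₀ n m x y = coo P₀ (n + m) ⟨vecL P₀ n x * vecL P₀ m y, hmem⟩ := by
    unfold mulc
    simp only [LinearMap.compr₂_apply, LinearMap.compl₁₂_apply, LinearMap.mul_apply',
      LinearMap.comp_apply, LinearEquiv.coe_coe]
    rw [retr_apply_of_mem P₀ (n + m) hmem]
  rw [this, vecL_coo]

theorem mulc_eq_zero (n m : ℕ) (x : Fin (dL P₀ n) → K) (t : Fin (dL P₀ m) → K)
    (h : mulc P₀ n m x t = 0) : x = 0 ∨ t = 0 := by
  have h1 := vecL_mulc P₀ n m x t
  rw [h, map_zero] at h1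
  rcases mul_eq_zero.1 h1.symm with h2 | h2
  · left
    exact vecL_injective P₀ n (by rw [h2, map_zero])
  · right
    exact vecL_injective P₀ m (by rw [h2, map_zero])

theorem map_vecL_Wc (n : ℕ) (E : Divisor K F) (hE : 0 ≤ E) :
    (Wc P₀ n E).map (vecL P₀ n) = Lsp P₀ n E := by
  unfold Wc
  rw [Submodule.map_comap_eq, range_vecL, inf_eq_right]
  exact Lsp_le_Lm P₀ n E hE

theorem finrank_map_vecL (n : ℕ) (U : Submodule K (Fin (dL P₀ n) → K)) :
    finrank K (U.map (vecL P₀ n)) = finrank K U :=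
  (LinearEquiv.finrank_eq (Submodule.equivMapOfInjective _ (vecL_injective P₀ n) U)).symm

theorem comap_map_vecL (n : ℕ) (U : Submodule K (Fin (dL P₀ n) → K)) :
    (U.map (vecL P₀ n)).comap (vecL P₀ n) = U :=
  Submodule.comap_map_eq_of_injective (vecL_injective P₀ n) U

theorem map_vecL_le_Lm (n : ℕ) (U : Submodule K (Fin (dL P₀ n) → K)) :
    U.map (vecL P₀ n) ≤ Lm P₀ n := by
  rintro _ ⟨x, _, rfl⟩
  exact vecL_mem P₀ n x

theorem map_vecL_top (n : ℕ) : (⊤ : Submodule K (Fin (dL P₀ n) → K)).map (vecL P₀ n) = Lm P₀ n := by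
  rw [Submodule.map_top, range_vecL]

theorem map_vecL_injective (n : ℕ) {U U' : Submodule K (Fin (dL P₀ n) → K)}
    (h : U.map (vecL P₀ n) = U'.map (vecL P₀ n)) : U = U' :=
  Submodule.map_injective_of_injective (vecL_injective P₀ n) h

theorem map_vecL_le_iff (n : ℕ) {U U' : Submodule K (Fin (dL P₀ n) → K)} :
    U.map (vecL P₀ n) ≤ U'.map (vecL P₀ n) ↔ U ≤ U' :=
  Submodule.map_le_map_iff_of_injective (vecL_injective P₀ n) U U'

theorem finrank_Wc (n : ℕ) (E : Divisor K F) (hE : 0 ≤ E) :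
    finrank K (Wc P₀ n E) = finrank K (Lsp P₀ n E) := by
  rw [← finrank_map_vecL, map_vecL_Wc P₀ n E hE]

theorem Wc_zero (n : ℕ) : Wc P₀ n 0 = ⊤ := by
  apply map_vecL_injective P₀ n
  rw [map_vecL_Wc P₀ n 0 le_rfl, map_vecL_top, Lsp_zero]

theorem Lsp_anti (n : ℕ) {E E' : Divisor K F} (h : E ≤ E') : Lsp P₀ n E' ≤ Lsp P₀ n E :=
  Riemann.L_mono (sub_le_sub_left h _)

theorem Wc_anti {n : ℕ} {E E' : Divisor K F} (h : E ≤ E') : Wc P₀ n E' ≤ Wc P₀ n E :=
  Submodule.comap_mono (Lsp_anti P₀ n h)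

/-- a subspace of `K^(dL n)` whose image is `L(n P₀ - E)` is `Wc n E` -/
theorem eq_Wc_of_map_eq (n : ℕ) (E : Divisor K F) (U : Submodule K (Fin (dL P₀ n) → K))
    (h : U.map (vecL P₀ n) = Lsp P₀ n E) : U = Wc P₀ n E := by
  unfold Wc
  rw [← h, comap_map_vecL]

theorem finrank_Wc_add (n r : ℕ) (E : Divisor K F) (hE : 0 ≤ E) (hdeg : Divisor.degree E = r)
    (hn : r + h1Bound K F ≤ n) : finrank K (Wc P₀ n E) + r = dL P₀ n := by
  have h1 := finrank_Lsp P₀ n r E hdeg hn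
  have h2 := finrank_Lm P₀ n (by omega)
  rw [finrank_Wc P₀ n E hE]
  unfold dL
  omega

end Fermat.Agent.S17.HA

end
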