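import Fermat.Agent.S17.Defs
import Fermat.Agent.S17.TP.AbsDefs

/-!
# S17, block HA (architect helper137): coordinates on `L(n P₀)`, subspaces `Wc n E`, heights `Hh n E`

`K` algebraically closed of characteristic zero, `F/K` a function field, `P₀` the base place.
* `dL n`      : `dim L(n P₀)`
* `vecL n`    : the injective linear map `K^(dL n) → F` with image `L(n P₀)` given by a chosen basis
* `Wc n E`    : the coordinates of `L(n P₀ - E)`, a subspace of `K^(dL n)`
* `mulc n m`  : multiplication `L(n P₀) × L(m P₀) → L((n+m) P₀)` in coordinates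
* `Hh H n E`  : `Hsub H (Wc n E)`, the height of `L(n P₀ - E)` inside `L(n P₀)`
* `hs H m t`  : the height of the coordinate vector of `t ∈ L(m P₀)` (junk `0` otherwise)
* `cHA`       : the threshold `2 c₀ + g + 1`
No proofs of substance in this file.
-/

set_option autoImplicit false
set_option linter.unusedSectionVars false

noncomputable section

namespace Fermat.Agent.S17.HA

open AlgebraicCurve Fermat.Agent.S24.FF Fermat.Agent.S27 Fermat.Agent.S17.TP Module

variable {K F : Type} [Field K] [Field F] [Algebra K F] [IsAlgClosed K] [CharZero K] [IsFF1 K F]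
  [NonConst K F] (P₀ : Place K F)

/-- `dim L(n P₀)` -/
def dL (n : ℕ) : ℕ := finrank K (Lm P₀ n)

/-- a basis of `L(n P₀)` -/
def bas (n : ℕ) : Basis (Fin (dL P₀ n)) K (Lm P₀ n) :=
  haveI : Module.Finite K (Lm P₀ n) := finite_riemannRochSpace _
  finBasis K (Lm P₀ n)

/-- coordinates -/
def coo (n : ℕ) : Lm P₀ n ≃ₗ[K] (Fin (dL P₀ n) → K) := (bas P₀ n).equivFun

/-- the function with given coordinates -/
def vecL (n : ℕ) : (Fin (dL P₀ n) → K) →ₗ[K] F :=
  (Lm P₀ n).subtype ∘ₗ (coo P₀ n).symm.toLinearMap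

/-- a linear retraction of `F` onto `L(n P₀)` (auxiliary) -/
def retr (n : ℕ) : F →ₗ[K] Lm P₀ n :=
  (LinearMap.exists_leftInverse_of_injective (Lm P₀ n).subtype (Submodule.ker_subtype _)).choose

theorem retr_comp_subtype (n : ℕ) : retr P₀ n ∘ₗ (Lm P₀ n).subtype = LinearMap.id :=
  (LinearMap.exists_leftInverse_of_injective (Lm P₀ n).subtype (Submodule.ker_subtype _)).choose_spec

/-- multiplication in coordinates -/
def mulc (n m : ℕ) :
    (Fin (dL P₀ n) → K) →ₗ[K] (Fin (dL P₀ m) → K) →ₗ[K] (Fin (dL P₀ (n + m)) → K) :=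
  ((LinearMap.mul K F).compl₁₂ (vecL P₀ n) (vecL P₀ m)).compr₂
    ((coo P₀ (n + m)).toLinearMap ∘ₗ retr P₀ (n + m))

/-- the coordinates of `L(n P₀ - E)` -/
def Wc (n : ℕ) (E : Divisor K F) : Submodule K (Fin (dL P₀ n) → K) :=
  (Lsp P₀ n E).comap (vecL P₀ n)

/-- the height of `L(n P₀ - E)` inside `L(n P₀)` -/
def Hh (H : HeightFn K) (n : ℕ) (E : Divisor K F) : ℝ := Hsub H (Wc P₀ n E)

open Classical in
/-- the height of a section of `L(m P₀)` -/
def hs (H : HeightFn K) (m : ℕ) (t : F) : ℝ :=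
  if h : t ∈ Lm P₀ m then H.h (coo P₀ m ⟨t, h⟩) else 0

variable (K F) in
/-- the threshold of block HA -/
def cHA : ℕ := 2 * h1Bound K F + genusFF K F + 1

end Fermat.Agent.S17.HA

end
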