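import Fermat.Agent.S17.HA.MulSpan

/-!
# S17/HA node HA2: flags `Wc n (E + P) ≤ Wc n E` and the hypotheses `YData` of Lemma Y
(skeleton helper137, proofs helper82)

* `finrank_Wc_le_succ`: with `D = n P₀ - E`, `t` a uniformiser at `P` (`exists_ord_eq_one`), `x ↦ lead P t (D P) (vecL x)` is a linear form on
  `Wc n E` (`lead_add`, `lead_smul`) with kernel `Wc n (E + pt P)` (`lead_eq_zero_iff`; `n P₀ - (E + pt P) = D - pt P`).
* `finrank_Wc_add_pt`: `finrank_Wc_add` for `E` and `E + pt P` (degrees `r`, `r + 1`).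
* `not_mulSpan_le`: take `x ∈ Wc n E \ Wc n (E+P)`, `y ∈ Wc m E' \ Wc m (E'+P)`; `lead_mul` and `lead_eq_zero_iff` (or `mem_L_sub_pt_iff` and
  `ord_mul`) show `vecL x * vecL y ∉ Lsp (n+m) (E+E'+pt P)`.
* `yData`: `le` = `Wc_anti`; `mul`, `mul₁`, `mul₂` = `mulSpan_Wc_le` + commutativity of `+`; `not_le` = `not_mulSpan_le`;
  `fr₃`: `U₃' ≤ U₃`, `U₃' ≠ U₃` (by `mul` and `not_le`), `finrank_Wc_le_succ`.
-/

set_option autoImplicit false
set_option linter.unusedSectionVars false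

noncomputable section

namespace Fermat.Agent.S17.HA

open AlgebraicCurve Fermat.Agent.S24.FF Fermat.Agent.S27 Fermat.Agent.S17.TP Fermat.Agent.S17.F Module

variable {K F : Type} [Field K] [Field F] [Algebra K F] [IsAlgClosed K] [CharZero K] [IsFF1 K F]
  [NonConst K F] (P₀ : Place K F)

/-- `n P₀ - (E + P) = (n P₀ - E) - P` -/
theorem flag_Lsp_add_pt (n : ℕ) (E : Divisor K F) (P : Place K F) :
    Lsp P₀ n (E + pt P) = riemannRochSpace (n • pt P₀ - E - pt P) := by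
  rw [Lsp, sub_add_eq_sub_sub]

theorem flag_le_add_pt (E : Divisor K F) (P : Place K F) : E ≤ E + pt P :=
  le_add_of_nonneg_right (LspAux.pt_nonneg P)

/-- the leading coefficient at `P`, as a linear form on `Wc n E` -/
def flagForm (n : ℕ) (E : Divisor K F) (P : Place K F) (t : F) (ht : P.ord t = 1) :
    Wc P₀ n E →ₗ[K] K where
  toFun x := lead P t ((n • pt P₀ - E) P) (vecL P₀ n x)
  map_add' x y := by
    rw [Submodule.coe_add, map_add]
    exact lead_add P t ht (n • pt P₀ - E) _ _ x.2 y.2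
  map_smul' c x := by
    rw [Submodule.coe_smul, map_smul]
    exact lead_smul P t ht (n • pt P₀ - E) c _ x.2

theorem flagForm_apply (n : ℕ) (E : Divisor K F) (P : Place K F) (t : F) (ht : P.ord t = 1)
    (x : Wc P₀ n E) :
    flagForm P₀ n E P t ht x = lead P t ((n • pt P₀ - E) P) (vecL P₀ n x) := rfl

theorem ker_flagForm (n : ℕ) (E : Divisor K F) (P : Place K F) (t : F) (ht : P.ord t = 1) :
    LinearMap.ker (flagForm P₀ n E P t ht) = (Wc P₀ n (E + pt P)).comap (Wc P₀ n E).subtype := by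
  ext x
  rw [LinearMap.mem_ker, flagForm_apply, lead_eq_zero_iff P t ht (n • pt P₀ - E) _ x.2,
    Submodule.mem_comap, mem_Wc_iff, flag_Lsp_add_pt]
  rfl

theorem finrank_Wc_le_succ (n : ℕ) (E : Divisor K F) (P : Place K F) :
    finrank K (Wc P₀ n E) ≤ finrank K (Wc P₀ n (E + pt P)) + 1 := by
  obtain ⟨t, ht⟩ := Fermat.Agent.S17.F.exists_ord_eq_one P
  have h1 := LinearMap.finrank_range_add_finrank_ker (flagForm P₀ n E P t ht)
  have h2 : finrank K (LinearMap.range (flagForm P₀ n E P t ht)) ≤ 1 := by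
    have := Submodule.finrank_le (LinearMap.range (flagForm P₀ n E P t ht))
    rwa [finrank_self] at this
  have h3 : finrank K (LinearMap.ker (flagForm P₀ n E P t ht))
      = finrank K (Wc P₀ n (E + pt P)) := by
    rw [ker_flagForm]
    exact (Submodule.comapSubtypeEquivOfLe (Wc_anti P₀ (flag_le_add_pt E P))).finrank_eq
  omega

theorem finrank_Wc_add_pt (n r : ℕ) (E : Divisor K F) (P : Place K F) (hE : 0 ≤ E)
    (hdeg : Divisor.degree E = r) (hn : r + 1 + h1Bound K F ≤ n) :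
    finrank K (Wc P₀ n (E + pt P)) + 1 = finrank K (Wc P₀ n E) := by
  have h1 := finrank_Wc_add P₀ n r E hE hdeg (by omega)
  have h2 := finrank_Wc_add P₀ n (r + 1) (E + pt P) (add_nonneg hE (LspAux.pt_nonneg P))
    (by rw [map_add, hdeg, degree_pt]; push_cast; ring) hn
  omega

theorem not_mulSpan_le (n m : ℕ) (E E' : Divisor K F) (P : Place K F)
    (h₁ : Wc P₀ n (E + pt P) ≠ Wc P₀ n E) (h₂ : Wc P₀ m (E' + pt P) ≠ Wc P₀ m E') :
    ¬ mulSpan (mulc P₀ n m) (Wc P₀ n E) (Wc P₀ m E') ≤ Wc P₀ (n + m) (E + E' + pt P) := by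
  intro hle
  obtain ⟨t, ht⟩ := Fermat.Agent.S17.F.exists_ord_eq_one P
  obtain ⟨x, hx, hx'⟩ := SetLike.exists_of_lt (lt_of_le_of_ne (Wc_anti P₀ (flag_le_add_pt E P)) h₁)
  obtain ⟨y, hy, hy'⟩ := SetLike.exists_of_lt (lt_of_le_of_ne (Wc_anti P₀ (flag_le_add_pt E' P)) h₂)
  have hxy : mulc P₀ n m x y ∈ Wc P₀ (n + m) (E + E' + pt P) :=
    hle (Submodule.apply_mem_map₂ _ hx hy)
  rw [mem_Wc_iff, vecL_mulc, flag_Lsp_add_pt] at hxy
  have hD : (n + m) • pt P₀ - (E + E') = (n • pt P₀ - E) + (m • pt P₀ - E') := by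
    rw [add_nsmul]; abel
  rw [hD] at hxy
  have hx1 : vecL P₀ n x ∈ riemannRochSpace (n • pt P₀ - E) := hx
  have hy1 : vecL P₀ m y ∈ riemannRochSpace (m • pt P₀ - E') := hy
  have hmem : vecL P₀ n x * vecL P₀ m y ∈
      riemannRochSpace ((n • pt P₀ - E) + (m • pt P₀ - E')) :=
    L_mul_L_le _ _ (Submodule.mul_mem_mul hx1 hy1)
  rw [← lead_eq_zero_iff P t ht _ _ hmem, lead_mul P t ht _ _ _ _ hx1 hy1, mul_eq_zero] at hxy
  rcases hxy with h | h
  · rw [lead_eq_zero_iff P t ht _ _ hx1, ← flag_Lsp_add_pt] at h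
    exact hx' h
  · rw [lead_eq_zero_iff P t ht _ _ hy1, ← flag_Lsp_add_pt] at h
    exact hy' h

theorem yData (n m : ℕ) (E E' : Divisor K F) (P : Place K F)
    (h₁ : finrank K (Wc P₀ n (E + pt P)) + 1 = finrank K (Wc P₀ n E))
    (h₂ : finrank K (Wc P₀ m (E' + pt P)) + 1 = finrank K (Wc P₀ m E')) :
    YData (mulc P₀ n m) (Wc P₀ n E) (Wc P₀ n (E + pt P)) (Wc P₀ m E') (Wc P₀ m (E' + pt P))
      (Wc P₀ (n + m) (E + E')) (Wc P₀ (n + m) (E + E' + pt P)) := by
  have hne₁ : Wc P₀ n (E + pt P) ≠ Wc P₀ n E := by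
    intro h
    rw [h] at h₁
    omega
  have hne₂ : Wc P₀ m (E' + pt P) ≠ Wc P₀ m E' := by
    intro h
    rw [h] at h₂
    omega
  have hmul := mulSpan_Wc_le P₀ n m E E'
  have hnot := not_mulSpan_le P₀ n m E E' P hne₁ hne₂
  have hle₃ : Wc P₀ (n + m) (E + E' + pt P) ≤ Wc P₀ (n + m) (E + E') :=
    Wc_anti P₀ (flag_le_add_pt (E + E') P)
  refine ⟨Wc_anti P₀ (flag_le_add_pt E P), Wc_anti P₀ (flag_le_add_pt E' P), hle₃, h₁, h₂, ?_,
    hmul, ?_, ?_, hnot⟩
  · have hlt : Wc P₀ (n + m) (E + E' + pt P) < Wc P₀ (n + m) (E + E') := by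
      refine lt_of_le_of_ne hle₃ fun h => hnot ?_
      rw [h]
      exact hmul
    have h3 := Submodule.finrank_lt_finrank_of_lt hlt
    have h4 := finrank_Wc_le_succ P₀ (n + m) (E + E') P
    omega
  · have := mulSpan_Wc_le P₀ n m (E + pt P) E'
    rwa [add_right_comm] at this
  · have := mulSpan_Wc_le P₀ n m E (E' + pt P)
    rwa [← add_assoc] at this

end Fermat.Agent.S17.HA

end
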