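import Fermat.Agent.S17.HA.Coord

/-!
# S17/HA node HA1: products of subspaces in coordinates (Castelnuovo)

`map_vecL_mulSpan`: `mulSpan = Submodule.map₂`; `Submodule.map_map₂`/`Submodule.map₂_map_map`-type lemmas or `le_antisymm` with
`Submodule.map₂_le`, `Submodule.mul_le`, and `vecL_mulc`.  (`Submodule.mul` of `K`-submodules of the algebra `F` is `map₂ (LinearMap.mul K F)`.)
`mulSpan_Wc_le`: `L_mul_L_le` (the divisor `(n+m) P₀ - (E+E') = (n P₀ - E) + (m P₀ - E')`).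
`mulSpan_Wc_eq`: apply the injective `vecL`: `map_vecL_mulSpan`, `map_vecL_Wc`, `Lsp_mul_Lsp`.
-/

set_option autoImplicit false
set_option linter.unusedSectionVars false

noncomputable section

namespace Fermat.Agent.S17.HA

open AlgebraicCurve Fermat.Agent.S24.FF Fermat.Agent.S27 Fermat.Agent.S17.TP Fermat.Agent.S17.F Module

variable {K F : Type} [Field K] [Field F] [Algebra K F] [IsAlgClosed K] [CharZero K] [IsFF1 K F]
  [NonConst K F] (P₀ : Place K F)

theorem map_vecL_mulSpan (n m : ℕ) (U₁ : Submodule K (Fin (dL P₀ n) → K))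
    (U₂ : Submodule K (Fin (dL P₀ m) → K)) :
    (mulSpan (mulc P₀ n m) U₁ U₂).map (vecL P₀ (n + m))
      = U₁.map (vecL P₀ n) * U₂.map (vecL P₀ m) := by
  unfold mulSpan
  rw [Submodule.map_map₂, Submodule.mul_eq_map₂, Submodule.map₂_map_map]
  congr 1
  ext x y
  simp [vecL_mulc]

theorem finrank_mulSpan (n m : ℕ) (U₁ : Submodule K (Fin (dL P₀ n) → K))
    (U₂ : Submodule K (Fin (dL P₀ m) → K)) :
    finrank K (mulSpan (mulc P₀ n m) U₁ U₂)
      = finrank K (U₁.map (vecL P₀ n) * U₂.map (vecL P₀ m) : Submodule K F) := by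
  rw [← map_vecL_mulSpan, finrank_map_vecL]

theorem Lsp_mul_Lsp_le (n m : ℕ) (E E' : Divisor K F) :
    Lsp P₀ n E * Lsp P₀ m E' ≤ Lsp P₀ (n + m) (E + E') := by
  have h := L_mul_L_le (K := K) (F := F) (n • pt P₀ - E) (m • pt P₀ - E')
  unfold Lsp
  have e : (n + m) • pt P₀ - (E + E') = (n • pt P₀ - E) + (m • pt P₀ - E') := by
    rw [add_smul]; abel
  rw [e]
  exact h

theorem mulSpan_Wc_le (n m : ℕ) (E E' : Divisor K F) :
    mulSpan (mulc P₀ n m) (Wc P₀ n E) (Wc P₀ m E') ≤ Wc P₀ (n + m) (E + E') := by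
  unfold mulSpan
  rw [Submodule.map₂_le]
  intro x hx y hy
  rw [mem_Wc_iff, vecL_mulc]
  exact Lsp_mul_Lsp_le P₀ n m E E' (Submodule.mul_mem_mul hx hy)

theorem mulSpan_Wc_eq (n m r r' : ℕ) (E E' : Divisor K F) (hE : 0 ≤ E) (hE' : 0 ≤ E')
    (hdeg : Divisor.degree E = r) (hdeg' : Divisor.degree E' = r')
    (hn : r + 2 * h1Bound K F + 1 ≤ n) (hm : r' + 2 * h1Bound K F + 1 ≤ m) :
    mulSpan (mulc P₀ n m) (Wc P₀ n E) (Wc P₀ m E') = Wc P₀ (n + m) (E + E') := by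
  apply map_vecL_injective
  rw [map_vecL_mulSpan, map_vecL_Wc P₀ n E hE, map_vecL_Wc P₀ m E' hE',
    map_vecL_Wc P₀ (n + m) (E + E') (add_nonneg hE hE')]
  exact Lsp_mul_Lsp P₀ n m r r' E E' hdeg hdeg' hn hm

end Fermat.Agent.S17.HA

end
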