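import Fermat.Agent.S17.HA.MainA
import Fermat.Agent.S17.HA.MainM
import Fermat.Agent.S17.FC.Defs

/-!
# S17/HA node HA8: the instance `HA.sys P₀ H : FC.Sys (Place K F) (Pic0 K F)` of the abstract block FC

* `subDeg_apply`: `rfl`/`simp [subDeg]`.  `subDeg_mem_degZero`: `Divisor.degree (pt P₀) = 1` (`Divisor.degree_single`, `deg_eq_one`).
* `clsHom_apply`: unfold; `cls` is `dif_pos`.
* `clsHom_eq_zero_iff`: `QuotientAddGroup.eq_zero_iff`, `AddSubgroup.mem_addSubgroupOf`.
* `sys_deg_single`: `Divisor.degree_single`, `deg_eq_one`.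
* `sys_riemann`: `exists_effective_of_degree P₀ a r hr` (block F9) + `clsHom_apply`.
* `sys_add`: `A_main` (`pt P = Finsupp.single P 1` by `rfl`).
* `sys_mul`: `clsHom Z = 0`, `deg Z = m` give `t ≠ 0` with `divOf t = Z - m • pt P₀`, so `secOf Z` has this property (`dif_pos`, `choose_spec`);
  `secOf Z ∈ Lm m` because `0 ≤ Z`; `E + divOf t + m • pt P₀ = E + Z`; `M_main n m`; `finrank_Lsp` gives
  `finrank (Lsp n E) = n - r + 1 - g` (cast to `ℝ`); `(Divisor.degree Z).toNat = m`.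
-/

set_option autoImplicit false
set_option linter.unusedSectionVars false

noncomputable section

namespace Fermat.Agent.S17.HA

open AlgebraicCurve Fermat.Agent.S24.FF Fermat.Agent.S27 Fermat.Agent.S17.TP Fermat.Agent.S17.F Module

variable {K F : Type} [Field K] [Field F] [Algebra K F] [IsAlgClosed K] [CharZero K] [IsFF1 K F]
  [NonConst K F] (P₀ : Place K F)

/-- `D ↦ D - deg D • P₀` as an endomorphism of the divisor group -/
def subDeg : Divisor K F →+ Divisor K F :=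
  AddMonoidHom.id (Divisor K F)
    - (((smulAddHom ℤ (Divisor K F)).flip (pt P₀)).comp
        (Divisor.degree : Divisor K F →+ ℤ) : Divisor K F →+ Divisor K F)

theorem subDeg_apply (D : Divisor K F) : subDeg P₀ D = D - Divisor.degree D • pt P₀ := by
  rfl

theorem subDeg_mem_degZero (D : Divisor K F) :
    subDeg P₀ D ∈ Divisor.degZero (K := K) (F := F) := by
  rw [subDeg_apply, Divisor.mem_degZero, map_sub, map_zsmul, degree_pt, smul_eq_mul, mul_one,
    sub_self]

/-- `D ↦ D - deg D • P₀` -/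
def toDegZero : Divisor K F →+ Divisor.degZero (K := K) (F := F) :=
  (subDeg P₀).codRestrict _ (subDeg_mem_degZero P₀)

/-- `D ↦` the class of `D - deg D • P₀` -/
def clsHom : Divisor K F →+ Pic0 K F := (QuotientAddGroup.mk' _).comp (toDegZero P₀)

theorem clsHom_apply (D : Divisor K F) : clsHom P₀ D = cls (D - Divisor.degree D • pt P₀) := by
  have h : D - Divisor.degree D • pt P₀ ∈ Divisor.degZero (K := K) (F := F) := by
    rw [← subDeg_apply]
    exact subDeg_mem_degZero P₀ D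
  rw [cls, dif_pos h]
  rfl

theorem clsHom_eq_zero_iff (D : Divisor K F) :
    clsHom P₀ D = 0 ↔ D - Divisor.degree D • pt P₀ ∈ Divisor.principal (K := K) (F := F) := by
  have h : clsHom P₀ D = QuotientAddGroup.mk (toDegZero P₀ D) := rfl
  rw [h, QuotientAddGroup.eq_zero_iff, AddSubgroup.mem_addSubgroupOf]
  rfl

open Classical in
/-- a function with divisor `Z - deg Z • P₀` (junk `0` if there is none) -/
def secOf (Z : Divisor K F) : F :=
  if h : ∃ t : F, t ≠ 0 ∧ Riemann.divOf t = Z - Divisor.degree Z • pt P₀ then h.choose else 0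

/-- the height of the section with zero divisor `Z` -/
def etaZ (H : HeightFn K) (Z : Divisor K F) : ℝ := hs P₀ H (Divisor.degree Z).toNat (secOf P₀ Z)

theorem sys_deg_single (P : Place K F) :
    Divisor.degree (Finsupp.single P 1 : Divisor K F) = 1 :=
  degree_pt P

theorem sys_riemann (a : Pic0 K F) (r : ℕ) (hr : genusFF K F ≤ r) :
    ∃ E : Place K F →₀ ℤ, 0 ≤ E ∧ Divisor.degree E = r ∧ clsHom P₀ E = a := by
  obtain ⟨E, hE, hdeg, hcls⟩ := exists_effective_of_degree P₀ a r hr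
  refine ⟨E, hE, hdeg, ?_⟩
  rw [clsHom_apply, hdeg, natCast_zsmul]
  exact hcls

theorem sys_add (H : HeightFn K) (n m r r' : ℕ) (hn : r + 1 + cHA K F ≤ n)
    (hm : r' + 1 + cHA K F ≤ m) :
    ∃ C : ℝ, ∀ (E E' : Place K F →₀ ℤ) (P : Place K F), 0 ≤ E → 0 ≤ E' →
      Divisor.degree E = r → Divisor.degree E' = r' →
      |Hh P₀ H (n + m) (E + E' + Finsupp.single P 1) - Hh P₀ H (n + m) (E + E')
        - (Hh P₀ H n (E + Finsupp.single P 1) - Hh P₀ H n E)
        - (Hh P₀ H m (E' + Finsupp.single P 1) - Hh P₀ H m E')| ≤ C :=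
  A_main P₀ H n m r r' hn hm

/-- the defining property of `secOf` -/
theorem secOf_spec {Z : Divisor K F} (hZ : clsHom P₀ Z = 0) :
    secOf P₀ Z ≠ 0 ∧ Riemann.divOf (secOf P₀ Z) = Z - Divisor.degree Z • pt P₀ := by
  have h : ∃ t : F, t ≠ 0 ∧ Riemann.divOf t = Z - Divisor.degree Z • pt P₀ := by
    obtain ⟨f, hf, hD⟩ := (clsHom_eq_zero_iff P₀ Z).1 hZ
    exact ⟨f, hf, Finsupp.ext fun v => by rw [Riemann.divOf_apply, hD v]⟩
  rw [secOf, dif_pos h]
  exact h.choose_spec

theorem secOf_mem_Lm {Z : Divisor K F} (hZ : clsHom P₀ Z = 0) (h0 : 0 ≤ Z) {m : ℕ}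
    (hm : Divisor.degree Z = m) : secOf P₀ Z ∈ Lm P₀ m := by
  obtain ⟨_, h2⟩ := secOf_spec P₀ hZ
  rw [Lm, mem_riemannRochSpace_iff]
  intro v
  right
  have h3 : v.ord (secOf P₀ Z) = Z v - (m • pt P₀) v := by
    rw [← Riemann.divOf_apply (K := K), h2, hm, natCast_zsmul, Finsupp.sub_apply]
  have h4 : 0 ≤ Z v := h0 v
  rw [h3]
  omega

theorem sys_mul (H : HeightFn K) (n m r : ℕ) (hn : r + cHA K F ≤ n) :
    ∃ C : ℝ, ∀ E Z : Place K F →₀ ℤ, 0 ≤ E → Divisor.degree E = r → 0 ≤ Z →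
      Divisor.degree Z = m → clsHom P₀ Z = 0 →
      |Hh P₀ H (n + m) (E + Z) - Hh P₀ H n E
        - ((n : ℝ) - r + 1 - (genusFF K F : ℕ)) * etaZ P₀ H Z| ≤ C := by
  obtain ⟨C, hC⟩ := M_main P₀ H n m
  refine ⟨C, fun E Z hE hdegE hZ hdegZ hcls => ?_⟩
  obtain ⟨ht0, hdiv⟩ := secOf_spec P₀ hcls
  have hmem := secOf_mem_Lm P₀ hcls hZ hdegZ
  have key := hC E (secOf P₀ Z) hE hmem ht0
  have e1 : E + Riemann.divOf (secOf P₀ Z) + m • pt P₀ = E + Z := by
    rw [hdiv, hdegZ, natCast_zsmul]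
    abel
  have e2 : (finrank K (Lsp P₀ n E) : ℝ) = (n : ℝ) - r + 1 - (genusFF K F : ℕ) := by
    have h := finrank_Lsp P₀ n r E hdegE (by unfold cHA at hn; omega)
    have h' : ((finrank K (Lsp P₀ n E) + r + genusFF K F : ℕ) : ℝ) = ((n + 1 : ℕ) : ℝ) := by
      rw [h]
    push_cast at h'
    linarith
  have e3 : etaZ P₀ H Z = hs P₀ H m (secOf P₀ Z) := by
    rw [etaZ, hdegZ, Int.toNat_natCast]
  rw [e1, e2] at key
  rw [e3]
  exact key

/-- the abstract height system of block FC attached to `(F, P₀, H)` -/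
def sys (H : HeightFn K) : FC.Sys (Place K F) (Pic0 K F) where
  g := genusFF K F
  c := cHA K F
  deg := Divisor.degree
  π := clsHom P₀
  H := Hh P₀ H
  η := etaZ P₀ H
  deg_single := sys_deg_single
  riemann := sys_riemann P₀
  add := sys_add P₀ H
  mul := sys_mul P₀ H

end Fermat.Agent.S17.HA

end
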